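import Mathlib

/-!
# `ℤ[ζ₁₃]` is a principal ideal domain

Minkowski bound `≈ 306.4`.  Every prime `q ≤ 306`, `q ≠ 13`, either has `q ^ f > 306`
(`f` the order of `q` modulo `13`) or is one of `3, 53, 79, 131, 157`, for which we exhibit an
explicit generator of a prime above `q` (Kummer--Dedekind + explicit cofactors).
-/

set_option autoImplicit false

namespace Fermat.Agent.S10

open NumberField Polynomial InfinitePlace Nat Real cyclotomic Ideal IsCyclotomicExtension.Rat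
open Module RingOfIntegers NumberField.Ideal

section general

variable (K : Type*) [Field K] [NumberField K] [IsCyclotomicExtension {13} ℚ K]

/-- The chosen primitive 13-th root of unity in `𝓞 K`. -/
noncomputable abbrev theta13 : 𝓞 K := (IsCyclotomicExtension.zeta_spec 13 ℚ K).toInteger

theorem theta13_geom_sum : ∑ i ∈ Finset.range 13, (theta13 K) ^ i = 0 := by
  have h := (IsCyclotomicExtension.zeta_spec 13 ℚ K).toInteger_isPrimitiveRoot
  exact h.geom_sum_eq_zero (by norm_num)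

theorem minpoly_theta13 : minpoly ℤ (theta13 K) = cyclotomic 13 ℤ := by
  have := cyclotomic_eq_minpoly (IsCyclotomicExtension.zeta_spec 13 ℚ K) (by norm_num)
  rw [this, ← (IsCyclotomicExtension.zeta_spec 13 ℚ K).coe_toInteger, ← RingOfIntegers.minpoly_coe]
  rfl

theorem not_dvd_exponent_theta13 (q : ℕ) [hq : Fact q.Prime] : ¬ q ∣ exponent (theta13 K) := by
  rw [exponent_eq_one_iff.mpr <| adjoin_singleton_eq_top (IsCyclotomicExtension.zeta_spec 13 ℚ K)]
  exact hq.out.not_dvd_one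

/-- A prime `(q, Q(θ))` given by Kummer--Dedekind is principal as soon as we have an element `α`
of it dividing both `q` and `Q(θ)`. -/
theorem exists_isPrincipal_mem_primesOver (q : ℕ) [hq : Fact q.Prime] (Q : ℤ[X])
    (hQ : Q.map (Int.castRingHom (ZMod q)) ∈ monicFactorsMod (theta13 K) q)
    (α β γ : 𝓞 K) (hα : α ∈ span {(q : 𝓞 K), aeval (theta13 K) Q})
    (hβ : α * β = q) (hγ : α * γ = aeval (theta13 K) Q) :
    ∃ P ∈ primesOver (span {(q : ℤ)}) (𝓞 K), Submodule.IsPrincipal P := by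
  have hexp := not_dvd_exponent_theta13 K q
  have hmem := ((primesOverSpanEquivMonicFactorsMod hexp).symm ⟨_, hQ⟩).prop
  rw [primesOverSpanEquivMonicFactorsMod_symm_apply_eq_span hexp hQ] at hmem
  refine ⟨_, hmem, ⟨α, ?_⟩⟩
  apply le_antisymm
  · rw [Ideal.span_le]
    rintro x (rfl | rfl)
    · exact Ideal.mem_span_singleton.mpr ⟨β, hβ.symm⟩
    · exact Ideal.mem_span_singleton.mpr ⟨γ, hγ.symm⟩
  · rw [Ideal.submodule_span_eq, Ideal.span_le]
    rintro x rfl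
    exact hα

end general

theorem hr53 : ∑ i ∈ Finset.range 13, ((36 : ℤ) : ZMod 53) ^ i = 0 := by decide

section general

variable (K : Type*) [Field K] [NumberField K] [IsCyclotomicExtension {13} ℚ K]

theorem X_sub_C_mem_monicFactorsMod (q : ℕ) [hq : Fact q.Prime] (r : ℤ)
    (hr : ∑ i ∈ Finset.range 13, (r : ZMod q) ^ i = 0) :
    (X - C r : ℤ[X]).map (Int.castRingHom (ZMod q)) ∈ monicFactorsMod (theta13 K) q := by
  have : Fact (Nat.Prime 13) := ⟨by norm_num⟩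
  have h0 : map (Int.castRingHom (ZMod q)) (minpoly ℤ (theta13 K)) ≠ 0 :=
    map_monic_ne_zero (minpoly.monic (theta13 K).isIntegral)
  rw [Multiset.mem_toFinset, Polynomial.mem_normalizedFactors_iff h0]
  have e : (X - C r : ℤ[X]).map (Int.castRingHom (ZMod q)) = X - C (r : ZMod q) := by
    simp
  rw [e]
  refine ⟨irreducible_X_sub_C _, monic_X_sub_C _, ?_⟩
  rw [dvd_iff_isRoot, minpoly_theta13, map_cyclotomic, cyclotomic_prime, IsRoot.def,
    eval_finsetSum]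
  simpa using hr

end general

section certificates

variable (K : Type*) [Field K] [NumberField K] [IsCyclotomicExtension {13} ℚ K]

local notation "θ" => theta13 K

theorem theta13_geom_sum' :
    1 + θ + θ ^ 2 + θ ^ 3 + θ ^ 4 + θ ^ 5 + θ ^ 6 + θ ^ 7 + θ ^ 8 + θ ^ 9 + θ ^ 10 + θ ^ 11
      + θ ^ 12 = 0 := by
  have h := theta13_geom_sum K
  simp only [Finset.sum_range_succ, Finset.sum_range_zero, pow_zero, pow_one, zero_add] at h
  exact h

theorem aeval_theta13_X_sub_C (r : ℤ) :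
    aeval θ (X - C r : ℤ[X]) = θ - (r : 𝓞 K) := by
  simp

theorem principal_53 :
    ∃ P ∈ primesOver (span {((53 : ℕ) : ℤ)}) (𝓞 K), Submodule.IsPrincipal P := by
  have : Fact (Nat.Prime 53) := ⟨by norm_num⟩
  have hΦ := theta13_geom_sum' K
  refine exists_isPrincipal_mem_primesOver K 53 (X - C 36)
    (X_sub_C_mem_monicFactorsMod K 53 36 hr53)
    ((1) + (1) * θ + (1) * θ ^ 3)
    ((1) + (-24) * θ + (-35) * θ ^ 2 + (-25) * θ ^ 3 + (-10) * θ ^ 4 + (-14) * θ ^ 5 + (-20) * θ ^ 6 + (-29) * θ ^ 7 + (-16) * θ ^ 8 + (-23) * θ ^ 9 + (-7) * θ ^ 10 + (-36) * θ ^ 11)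
    ((17) * θ + (24) * θ ^ 2 + (17) * θ ^ 3 + (7) * θ ^ 4 + (10) * θ ^ 5 + (14) * θ ^ 6 + (20) * θ ^ 7 + (11) * θ ^ 8 + (16) * θ ^ 9 + (5) * θ ^ 10 + (25) * θ ^ 11) ?_ ?_ ?_
  · rw [Ideal.mem_span_pair, aeval_theta13_X_sub_C]
    refine ⟨(881), (1297) + (36) * θ + (1) * θ ^ 2, ?_⟩
    push_cast
    ring
  · push_cast
    linear_combination ((-52) + (29) * θ + (-36) * θ ^ 2) * hΦ
  · rw [aeval_theta13_X_sub_C]
    push_cast
    linear_combination ((36) + (-20) * θ + (25) * θ ^ 2) * hΦ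

theorem hr131 : ∑ i ∈ Finset.range 13, ((80 : ℤ) : ZMod 131) ^ i = 0 := by decide

theorem principal_131 :
    ∃ P ∈ primesOver (span {((131 : ℕ) : ℤ)}) (𝓞 K), Submodule.IsPrincipal P := by
  have : Fact (Nat.Prime 131) := ⟨by norm_num⟩
  have hΦ := theta13_geom_sum' K
  refine exists_isPrincipal_mem_primesOver K 131 (X - C 80)
    (X_sub_C_mem_monicFactorsMod K 131 80 hr131)
    ((1) + (-1) * θ + (-1) * θ ^ 3)
    ((111) + (78) * θ + (17) * θ ^ 2 + (67) * θ ^ 3 + (84) * θ ^ 4 + (40) * θ ^ 5 + (46) * θ ^ 6 + (69) * θ ^ 7 + (48) * θ ^ 8 + (33) * θ ^ 9 + (41) * θ ^ 10 + (28) * θ ^ 11)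
    ((-68) + (-47) * θ + (-10) * θ ^ 2 + (-41) * θ ^ 3 + (-51) * θ ^ 4 + (-24) * θ ^ 5 + (-28) * θ ^ 6 + (-42) * θ ^ 7 + (-29) * θ ^ 8 + (-20) * θ ^ 9 + (-25) * θ ^ 10 + (-17) * θ ^ 11) ?_ ?_ ?_
  · rw [Ideal.mem_span_pair, aeval_theta13_X_sub_C]
    refine ⟨(-3909), (-6401) + (-80) * θ + (-1) * θ ^ 2, ?_⟩
    push_cast
    ring
  · push_cast
    linear_combination ((-20) + (-13) * θ + (-28) * θ ^ 2) * hΦ
  · rw [aeval_theta13_X_sub_C]
    push_cast
    linear_combination ((12) + (8) * θ + (17) * θ ^ 2) * hΦ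

theorem hr79 : ∑ i ∈ Finset.range 13, ((64 : ℤ) : ZMod 79) ^ i = 0 := by decide

theorem principal_79 :
    ∃ P ∈ primesOver (span {((79 : ℕ) : ℤ)}) (𝓞 K), Submodule.IsPrincipal P := by
  have : Fact (Nat.Prime 79) := ⟨by norm_num⟩
  have hΦ := theta13_geom_sum' K
  refine exists_isPrincipal_mem_primesOver K 79 (X - C 64)
    (X_sub_C_mem_monicFactorsMod K 79 64 hr79)
    ((1) + (1) * θ + (-1) * θ ^ 4)
    ((24) + (-25) * θ + (-27) * θ ^ 2 + (10) * θ ^ 3 + (-3) * θ ^ 4 + (-39) * θ ^ 5 + (-5) * θ ^ 6 + (-2) * θ ^ 7 + (-18) * θ ^ 8 + (-38) * θ ^ 9 + (16) * θ ^ 10 + (-35) * θ ^ 11)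
    ((-19) + (21) * θ + (22) * θ ^ 2 + (-8) * θ ^ 3 + (3) * θ ^ 4 + (32) * θ ^ 5 + (4) * θ ^ 6 + (2) * θ ^ 7 + (15) * θ ^ 8 + (31) * θ ^ 9 + (-13) * θ ^ 10 + (29) * θ ^ 11) ?_ ?_ ?_
  · rw [Ideal.mem_span_pair, aeval_theta13_X_sub_C]
    refine ⟨(-212369), (-262143) + (-4096) * θ + (-64) * θ ^ 2 + (-1) * θ ^ 3, ?_⟩
    push_cast
    ring
  · push_cast
    linear_combination ((-55) + (54) * θ + (-51) * θ ^ 2 + (35) * θ ^ 3) * hΦ
  · rw [aeval_theta13_X_sub_C]
    push_cast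
    linear_combination ((45) + (-44) * θ + (42) * θ ^ 2 + (-29) * θ ^ 3) * hΦ

theorem hr157 : ∑ i ∈ Finset.range 13, ((75 : ℤ) : ZMod 157) ^ i = 0 := by decide

theorem principal_157 :
    ∃ P ∈ primesOver (span {((157 : ℕ) : ℤ)}) (𝓞 K), Submodule.IsPrincipal P := by
  have : Fact (Nat.Prime 157) := ⟨by norm_num⟩
  have hΦ := theta13_geom_sum' K
  refine exists_isPrincipal_mem_primesOver K 157 (X - C 75)
    (X_sub_C_mem_monicFactorsMod K 157 75 hr157)
    ((1) + (-1) * θ + (1) * θ ^ 2 + (1) * θ ^ 4)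
    ((89) + (86) * θ + (42) * θ ^ 2 + (77) * θ ^ 3 + (67) * θ ^ 4 + (25) * θ ^ 5 + (37) * θ ^ 6 + (56) * θ ^ 7 + (73) * θ ^ 8 + (113) * θ ^ 9 + (124) * θ ^ 10 + (76) * θ ^ 11)
    ((-43) + (-41) * θ + (-20) * θ ^ 2 + (-37) * θ ^ 3 + (-32) * θ ^ 4 + (-12) * θ ^ 5 + (-18) * θ ^ 6 + (-27) * θ ^ 7 + (-35) * θ ^ 8 + (-54) * θ ^ 9 + (-59) * θ ^ 10 + (-36) * θ ^ 11) ?_ ?_ ?_
  · rw [Ideal.mem_span_pair, aeval_theta13_X_sub_C]
    refine ⟨(201568), (421949) + (5626) * θ + (75) * θ ^ 2 + (1) * θ ^ 3, ?_⟩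
    push_cast
    ring
  · push_cast
    linear_combination ((-68) + (65) * θ + (48) * θ ^ 2 + (76) * θ ^ 3) * hΦ
  · rw [aeval_theta13_X_sub_C]
    push_cast
    linear_combination ((32) + (-31) * θ + (-23) * θ ^ 2 + (-36) * θ ^ 3) * hΦ

end certificates

/-- The cubic `X³ - X - 1`, an irreducible factor of `Φ₁₃` modulo `3`. -/
noncomputable abbrev cubic3 : ℤ[X] := X ^ 3 - X - 1

theorem cyclotomic13_eq_cubic3_mul :
    cyclotomic 13 ℤ = cubic3 * (20 + 15 * X + 11 * X ^ 2 + 8 * X ^ 3 + 6 * X ^ 4 + 4 * X ^ 5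
      + 3 * X ^ 6 + 2 * X ^ 7 + X ^ 8 + X ^ 9) + 3 * (7 + 12 * X + 9 * X ^ 2) := by
  have : Fact (Nat.Prime 13) := ⟨by norm_num⟩
  rw [cyclotomic_prime]
  simp only [Finset.sum_range_succ, Finset.sum_range_zero, pow_zero, pow_one, zero_add, cubic3]
  ring

theorem three_eq_zero_polynomial_zmod3 : (3 : (ZMod 3)[X]) = 0 := by
  have h : (3 : ZMod 3) = 0 := by decide
  rw [← map_ofNat (C : ZMod 3 →+* (ZMod 3)[X]) 3, h, map_zero]

theorem map_cubic3 : cubic3.map (Int.castRingHom (ZMod 3)) = X ^ 3 - X - 1 := by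
  simp [cubic3]

theorem irreducible_map_cubic3 : Irreducible (cubic3.map (Int.castRingHom (ZMod 3))) := by
  rw [map_cubic3]
  apply irreducible_of_degree_le_three_of_not_isRoot
  · have : (X ^ 3 - X - 1 : (ZMod 3)[X]).natDegree = 3 := by compute_degree!
    rw [this]; decide
  · intro x
    fin_cases x <;> simp [IsRoot] <;> decide

section

variable (K : Type*) [Field K] [NumberField K] [IsCyclotomicExtension {13} ℚ K]

local notation "θ" => theta13 K

theorem cubic3_mem_monicFactorsMod :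
    have : Fact (Nat.Prime 3) := ⟨by norm_num⟩
    cubic3.map (Int.castRingHom (ZMod 3)) ∈ monicFactorsMod (theta13 K) 3 := by
  have : Fact (Nat.Prime 3) := ⟨by norm_num⟩
  have h0 : map (Int.castRingHom (ZMod 3)) (minpoly ℤ (theta13 K)) ≠ 0 :=
    map_monic_ne_zero (minpoly.monic (theta13 K).isIntegral)
  rw [Multiset.mem_toFinset, Polynomial.mem_normalizedFactors_iff h0]
  refine ⟨irreducible_map_cubic3, ?_, ?_⟩
  · rw [map_cubic3]; monicity!
  · rw [minpoly_theta13, cyclotomic13_eq_cubic3_mul, Polynomial.map_add, Polynomial.map_mul,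
      Polynomial.map_mul]
    have : (3 : ℤ[X]).map (Int.castRingHom (ZMod 3)) = 0 := by
      rw [Polynomial.map_ofNat]; exact three_eq_zero_polynomial_zmod3
    rw [this, zero_mul, add_zero]
    exact dvd_mul_right _ _

theorem aeval_theta13_cubic3 : aeval θ cubic3 = θ ^ 3 - θ - 1 := by
  simp [cubic3]

theorem principal_3 :
    ∃ P ∈ primesOver (span {((3 : ℕ) : ℤ)}) (𝓞 K), Submodule.IsPrincipal P := by
  have : Fact (Nat.Prime 3) := ⟨by norm_num⟩
  have hΦ := theta13_geom_sum' K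
  refine exists_isPrincipal_mem_primesOver K 3 cubic3 (cubic3_mem_monicFactorsMod K)
    (1 + θ - θ ^ 3)
    ((-1) + (-1) * θ ^ 2 + (-1) * θ ^ 3 + (-2) * θ ^ 5 + (-1) * θ ^ 7 + (-2) * θ ^ 8 + θ ^ 9
      + (-3) * θ ^ 10)
    (-1) ?_ ?_ ?_
  · rw [Ideal.mem_span_pair, aeval_theta13_cubic3]
    refine ⟨0, -1, ?_⟩
    ring
  · push_cast
    linear_combination ((-4) + 3 * θ) * hΦ
  · rw [aeval_theta13_cubic3]
    ring

end

theorem orderOf_two_zmod_thirteen : orderOf ((2 : ℕ) : ZMod 13) = 12 :=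
  (orderOf_eq_iff (by norm_num)).mpr ⟨by decide, by decide⟩

theorem orderOf_five_zmod_thirteen : orderOf ((5 : ℕ) : ZMod 13) = 4 :=
  (orderOf_eq_iff (by norm_num)).mpr ⟨by decide, by decide⟩

theorem orderOf_seven_zmod_thirteen : orderOf ((7 : ℕ) : ZMod 13) = 12 :=
  (orderOf_eq_iff (by norm_num)).mpr ⟨by decide, by decide⟩

theorem orderOf_eleven_zmod_thirteen : orderOf ((11 : ℕ) : ZMod 13) = 12 :=
  (orderOf_eq_iff (by norm_num)).mpr ⟨by decide, by decide⟩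

theorem orderOf_seventeen_zmod_thirteen : orderOf ((17 : ℕ) : ZMod 13) = 6 :=
  (orderOf_eq_iff (by norm_num)).mpr ⟨by decide, by decide⟩

/-- For `q` not divisible by `13` and `q ≢ 1 mod 13`, the order of `q` in `ZMod 13` is at least 2. -/
theorem two_le_orderOf_zmod_thirteen (q : ℕ) (h13 : ¬ 13 ∣ q) (h1 : q % 13 ≠ 1) :
    2 ≤ orderOf ((q : ℕ) : ZMod 13) := by
  have : Fact (Nat.Prime 13) := ⟨by norm_num⟩
  have hne : ((q : ℕ) : ZMod 13) ≠ 0 := by
    rw [Ne, ZMod.natCast_eq_zero_iff]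
    exact h13
  have hpow : ((q : ℕ) : ZMod 13) ^ 12 = 1 := ZMod.pow_card_sub_one_eq_one hne
  have hpos : 0 < orderOf ((q : ℕ) : ZMod 13) :=
    orderOf_pos_iff.mpr (isOfFinOrder_iff_pow_eq_one.mpr ⟨12, by norm_num, hpow⟩)
  have hne1 : orderOf ((q : ℕ) : ZMod 13) ≠ 1 := by
    rw [Ne, orderOf_eq_one_iff]
    intro h
    have h2 : ((q : ℕ) : ZMod 13) = ((1 : ℕ) : ZMod 13) := by simpa using h
    rw [ZMod.natCast_eq_natCast_iff'] at h2
    exact h1 (by simpa using h2)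
  omega

/-- Primes `q ≤ 306` with `q ≡ 1 mod 13`. -/
theorem prime_le_306_mod_thirteen {q : ℕ} (hq : q.Prime) (h306 : q ≤ 306) (h1 : q % 13 = 1) :
    q = 53 ∨ q = 79 ∨ q = 131 ∨ q = 157 := by
  obtain ⟨k, rfl⟩ : ∃ k, q = 13 * k + 1 := ⟨q / 13, by omega⟩
  have hk : k ≤ 23 := by omega
  interval_cases k <;> first | omega | (exfalso; revert hq; norm_num)

theorem minkowski_thirteen (K : Type*) [Field K] [NumberField K]
    [IsCyclotomicExtension {13} ℚ K] :
    ⌊(4 / π) ^ nrComplexPlaces K *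
      ((finrank ℚ K)! / (finrank ℚ K) ^ (finrank ℚ K) * √|discr K|)⌋₊ ≤ 306 := by
  have : Fact (Nat.Prime 13) := ⟨by norm_num⟩
  rw [discr_prime 13 K, IsCyclotomicExtension.finrank (n := 13) K
    (irreducible_rat (by simp)), nrComplexPlaces_eq_totient_div_two 13,
    totient_prime (by norm_num)]
  have e1 : ((((-1 : ℤ) ^ ((13 - 1) / 2) * ((13 : ℕ) : ℤ) ^ (13 - 2) : ℤ)) : ℝ) =
      1792160394037 := by
    norm_num
  have e2 : (((13 - 1 : ℕ)! : ℕ) : ℝ) = 479001600 := by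
    norm_num [Nat.factorial]
  rw [e1, e2]
  have h0 : (0 : ℝ) < π := pi_pos
  have h1 : (4 / π) < 4 / 3.1415 := by
    gcongr
    exact pi_gt_d4
  have h1' : (0 : ℝ) ≤ 4 / π := by positivity
  have h2 : √|(1792160394037 : ℝ)| ≤ 1338717 := by
    rw [abs_of_pos (by norm_num : (0 : ℝ) < 1792160394037)]
    exact Real.sqrt_le_iff.mpr ⟨by norm_num, by norm_num⟩
  have hlt : (4 / π) ^ ((13 - 1) / 2) *
      ((479001600 : ℝ) / ((13 - 1 : ℕ) : ℝ) ^ (13 - 1) * √|(1792160394037 : ℝ)|) < 307 := by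
    calc (4 / π) ^ ((13 - 1) / 2) *
          ((479001600 : ℝ) / ((13 - 1 : ℕ) : ℝ) ^ (13 - 1) * √|(1792160394037 : ℝ)|)
        ≤ (4 / 3.1415 : ℝ) ^ ((13 - 1) / 2) *
          ((479001600 : ℝ) / ((13 - 1 : ℕ) : ℝ) ^ (13 - 1) * 1338717) := by
          gcongr
      _ < 307 := by norm_num
  have hnn : (0 : ℝ) ≤ (4 / π) ^ ((13 - 1) / 2) *
      ((479001600 : ℝ) / ((13 - 1 : ℕ) : ℝ) ^ (13 - 1) * √|(1792160394037 : ℝ)|) := by positivity
  exact Nat.lt_succ_iff.mp ((Nat.floor_lt hnn).mpr (by exact_mod_cast hlt))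

theorem thirteen_pid (K : Type*) [Field K] [NumberField K] [IsCyclotomicExtension {13} ℚ K] :
    IsPrincipalIdealRing (𝓞 K) := by
  have : Fact (Nat.Prime 13) := ⟨by norm_num⟩
  have : IsGalois ℚ K := IsCyclotomicExtension.isGalois {13} ℚ K
  have hM := minkowski_thirteen K
  apply RingOfIntegers.isPrincipalIdealRing_of_isPrincipal_of_lt_or_isPrincipal_of_mem_primesOver_of_mem_Icc
  intro q hq hqp
  have hq306 : q ≤ 306 := (Finset.mem_Icc.mp hq).2.trans hM
  have : Fact q.Prime := ⟨hqp⟩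
  -- the ramified prime
  by_cases h13 : q = 13
  · subst h13
    obtain ⟨⟨P, hP1, hP2⟩⟩ := (span {((13 : ℕ) : ℤ)}).nonempty_primesOver (S := 𝓞 K)
    refine ⟨P, ⟨hP1, hP2⟩, Or.inr ?_⟩
    rw [eq_span_zeta_sub_one_of_liesOver' 13 K (IsCyclotomicExtension.zeta_spec 13 ℚ K) P]
    exact ⟨_, rfl⟩
  have hq13 : ¬ q ∣ 13 := by
    intro h
    rcases (Nat.dvd_prime (by norm_num : Nat.Prime 13)).mp h with h | h
    · exact hqp.one_lt.ne' h
    · exact h13 h
  have h13q : ¬ 13 ∣ q := by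
    intro h
    rcases (Nat.dvd_prime hqp).mp h with h | h
    · omega
    · exact h13 h.symm
  -- the primes needing an explicit generator
  by_cases h3 : q = 3
  · subst h3
    obtain ⟨P, hP, hprinc⟩ := principal_3 K
    exact ⟨P, hP, Or.inr hprinc⟩
  by_cases h1 : q % 13 = 1
  · rcases prime_le_306_mod_thirteen hqp hq306 h1 with rfl | rfl | rfl | rfl
    · obtain ⟨P, hP, hprinc⟩ := principal_53 K
      exact ⟨P, hP, Or.inr hprinc⟩
    · obtain ⟨P, hP, hprinc⟩ := principal_79 K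
      exact ⟨P, hP, Or.inr hprinc⟩
    · obtain ⟨P, hP, hprinc⟩ := principal_131 K
      exact ⟨P, hP, Or.inr hprinc⟩
    · obtain ⟨P, hP, hprinc⟩ := principal_157 K
      exact ⟨P, hP, Or.inr hprinc⟩
  -- all other primes: the inertia degree is large enough
  obtain ⟨⟨P, hP1, hP2⟩⟩ := (span {(q : ℤ)}).nonempty_primesOver (S := 𝓞 K)
  refine ⟨P, ⟨hP1, hP2⟩, Or.inl ?_⟩
  refine lt_of_le_of_lt hM ?_
  rw [inertiaDeg_eq_of_not_dvd q K P hq13]
  by_cases hbig : 18 ≤ q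
  · have h2 := two_le_orderOf_zmod_thirteen q h13q h1
    calc 306 < q ^ 2 := by nlinarith
      _ ≤ q ^ orderOf ((q : ℕ) : ZMod 13) := Nat.pow_le_pow_right hqp.pos h2
  · have h2 := hqp.two_le
    rw [not_le] at hbig
    interval_cases q
    · rw [orderOf_two_zmod_thirteen]; norm_num
    · exact absurd rfl h3
    · exact absurd hqp (by norm_num)
    · rw [orderOf_five_zmod_thirteen]; norm_num
    · exact absurd hqp (by norm_num)
    · rw [orderOf_seven_zmod_thirteen]; norm_num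
    · exact absurd hqp (by norm_num)
    · exact absurd hqp (by norm_num)
    · exact absurd hqp (by norm_num)
    · rw [orderOf_eleven_zmod_thirteen]; norm_num
    · exact absurd hqp (by norm_num)
    · exact absurd rfl h13
    · exact absurd hqp (by norm_num)
    · exact absurd hqp (by norm_num)
    · exact absurd hqp (by norm_num)
    · rw [orderOf_seventeen_zmod_thirteen]; norm_num

end Fermat.Agent.S10
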