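import Mathlib

/-!
# Principal primes over `3, 53, 79, 131, 157` in `ℤ[ζ₁₃]`  (S10, piece K1-13.cert)

Generic certificate lemma (after helper67's `exists_principal_twentythree`) and the five
instances needed for the Minkowski-bound argument for `ℚ(ζ₁₃)`.
-/

set_option autoImplicit false

namespace Fermat.Agent.S10.PID13Cert

open NumberField Polynomial Ideal

/-- Generic certificate: `α = f(ζ)` with `f(r) ≡ 0 mod q`, `q ∣ Φ_p(r)`, `α β = q`,
`α γ = ζ - r`.  Then `(α)` is a prime over `q`. -/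
theorem exists_principal_of_cert (p : ℕ) [hp : Fact p.Prime] (K : Type*) [Field K] [NumberField K]
    [IsCyclotomicExtension {p} ℚ K] (q : ℕ) [hq : Fact q.Prime] (r : ℤ)
    (hr' : (q : ℤ) ∣ ∑ i ∈ Finset.range p, r ^ i)
    (f : ℤ[X]) (hf : (q : ℤ) ∣ f.eval r)
    (β γ : 𝓞 K)
    (hαβ : aeval (IsCyclotomicExtension.zeta_spec p ℚ K).toInteger f * β = q)
    (hαγ : aeval (IsCyclotomicExtension.zeta_spec p ℚ K).toInteger f * γ =
      (IsCyclotomicExtension.zeta_spec p ℚ K).toInteger - r) :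
    ∃ P ∈ primesOver (span {(q : ℤ)}) (𝓞 K), Submodule.IsPrincipal P := by
  have hr : ∑ i ∈ Finset.range p, ((r : ZMod q)) ^ i = 0 := by
    have h := (ZMod.intCast_zmod_eq_zero_iff_dvd _ q).mpr hr'
    simpa using h
  have hζ := IsCyclotomicExtension.zeta_spec p ℚ K
  set ζ : 𝓞 K := hζ.toInteger with hζdef
  let pb := hζ.integralPowerBasis
  have hgen : pb.gen = ζ := hζ.integralPowerBasis_gen
  have hy : aeval ((r : ZMod q)) (minpoly ℤ pb.gen) = 0 := by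
    have hcoe : ((hζ.toInteger : 𝓞 K) : K) = IsCyclotomicExtension.zeta p ℚ K := rfl
    rw [hgen, hζdef, ← RingOfIntegers.minpoly_coe, hcoe,
      ← cyclotomic_eq_minpoly hζ hp.out.pos, cyclotomic_prime]
    simpa [map_sum, map_pow, aeval_X] using hr
  let φ : 𝓞 K →ₐ[ℤ] ZMod q := pb.lift (r : ZMod q) hy
  have hφζ : φ ζ = (r : ZMod q) := by
    rw [← hgen]; exact pb.lift_gen _ hy
  set α : 𝓞 K := aeval ζ f with hα
  have hφaeval : ∀ g : ℤ[X], φ (aeval ζ g) = ((g.eval r : ℤ) : ZMod q) := by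
    intro g
    rw [← Polynomial.aeval_algHom_apply, hφζ, aeval_def]
    exact Polynomial.eval₂_at_apply (Int.castRingHom (ZMod q)) r
  have hφα : φ α = 0 := by
    rw [hα, hφaeval, ZMod.intCast_zmod_eq_zero_iff_dvd]
    exact hf
  have hker : RingHom.ker (φ : 𝓞 K →+* ZMod q) = span {α} := by
    apply le_antisymm
    · intro x hx
      rw [RingHom.mem_ker] at hx
      obtain ⟨g, rfl⟩ : ∃ g : ℤ[X], aeval ζ g = x := by
        obtain ⟨g, hg⟩ := pb.exists_eq_aeval' x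
        exact ⟨g, by rw [← hgen]; exact hg.symm⟩
      obtain ⟨g', c, hdecomp⟩ : ∃ (g' : ℤ[X]) (c : ℤ), g = (X - C r) * g' + C c := by
        refine ⟨g /ₘ (X - C r), g.eval r, ?_⟩
        have := modByMonic_add_div g (X - C (r : ℤ))
        rw [modByMonic_X_sub_C_eq_C_eval] at this
        conv_lhs => rw [← this]
        ring
      subst hdecomp
      have hval : aeval ζ ((X - C r) * g' + C c) = (ζ - r) * aeval ζ g' + (c : 𝓞 K) := by
        simp only [map_add, map_mul, map_sub, aeval_X, aeval_C]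
        simp
      have hφg : (φ : 𝓞 K →+* ZMod q) (aeval ζ ((X - C r) * g' + C c)) = (c : ZMod q) := by
        change φ (aeval ζ ((X - C r) * g' + C c)) = (c : ZMod q)
        rw [hφaeval]
        simp
      rw [hφg, ZMod.intCast_zmod_eq_zero_iff_dvd] at hx
      obtain ⟨k, hk⟩ := hx
      rw [mem_span_singleton]
      refine ⟨γ * aeval ζ g' + β * k, ?_⟩
      rw [hval, hk, ← hαγ]
      push_cast
      linear_combination (k : 𝓞 K) * hαβ.symm
    · rw [span_le, Set.singleton_subset_iff]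
      exact hφα
  have hprime : (span {α}).IsPrime := by rw [← hker]; exact RingHom.ker_isPrime _
  refine ⟨span {α}, ⟨hprime, ?_⟩, ⟨⟨α, rfl⟩⟩⟩
  rw [liesOver_iff]
  refine IsMaximal.eq_of_le (Int.ideal_span_isMaximal_of_prime q) IsPrime.ne_top' ?_
  rw [span_singleton_le_iff_mem, under_def, mem_comap, algebraMap_int_eq, eq_intCast]
  rw [mem_span_singleton]
  exact ⟨β, by rw [hαβ]; simp⟩


/-- `1 + ζ + ⋯ + ζ¹² = 0` for the chosen primitive 13th root of unity in `𝓞 K`. -/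
theorem geom_zero (K : Type*) [Field K] [NumberField K] [IsCyclotomicExtension {13} ℚ K] :
    1 + (IsCyclotomicExtension.zeta_spec 13 ℚ K).toInteger
      + (IsCyclotomicExtension.zeta_spec 13 ℚ K).toInteger ^ 2
      + (IsCyclotomicExtension.zeta_spec 13 ℚ K).toInteger ^ 3
      + (IsCyclotomicExtension.zeta_spec 13 ℚ K).toInteger ^ 4
      + (IsCyclotomicExtension.zeta_spec 13 ℚ K).toInteger ^ 5
      + (IsCyclotomicExtension.zeta_spec 13 ℚ K).toInteger ^ 6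
      + (IsCyclotomicExtension.zeta_spec 13 ℚ K).toInteger ^ 7
      + (IsCyclotomicExtension.zeta_spec 13 ℚ K).toInteger ^ 8
      + (IsCyclotomicExtension.zeta_spec 13 ℚ K).toInteger ^ 9
      + (IsCyclotomicExtension.zeta_spec 13 ℚ K).toInteger ^ 10
      + (IsCyclotomicExtension.zeta_spec 13 ℚ K).toInteger ^ 11
      + (IsCyclotomicExtension.zeta_spec 13 ℚ K).toInteger ^ 12 = 0 := by
  have h := (IsCyclotomicExtension.zeta_spec 13 ℚ K).toInteger_isPrimitiveRoot.geom_sum_eq_zero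
    (by norm_num)
  simpa [Finset.sum_range_succ] using h

/-- A principal prime over `53` in `ℤ[ζ₁₃]`. -/
theorem exists_principal_53 (K : Type*) [Field K] [NumberField K]
    [IsCyclotomicExtension {13} ℚ K] :
    ∃ P ∈ primesOver (span {((53 : ℕ) : ℤ)}) (𝓞 K), Submodule.IsPrincipal P := by
  have : Fact (Nat.Prime 13) := ⟨by norm_num⟩
  have : Fact (Nat.Prime 53) := ⟨by norm_num⟩
  have hζ := IsCyclotomicExtension.zeta_spec 13 ℚ K
  have hΦ := geom_zero K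
  set ζ : 𝓞 K := hζ.toInteger with hζdef
  refine exists_principal_of_cert 13 K 53 36 ?_ (1 + X + X ^ 3) ?_
    (1 - 24 * ζ - 35 * ζ ^ 2 - 25 * ζ ^ 3 - 10 * ζ ^ 4 - 14 * ζ ^ 5 - 20 * ζ ^ 6 - 29 * ζ ^ 7 - 16 * ζ ^ 8 - 23 * ζ ^ 9 - 7 * ζ ^ 10 - 36 * ζ ^ 11)
    (17 * ζ + 24 * ζ ^ 2 + 17 * ζ ^ 3 + 7 * ζ ^ 4 + 10 * ζ ^ 5 + 14 * ζ ^ 6 + 20 * ζ ^ 7 + 11 * ζ ^ 8 + 16 * ζ ^ 9 + 5 * ζ ^ 10 + 25 * ζ ^ 11) ?_ ?_
  · norm_num [Finset.sum_range_succ]
  · norm_num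
  · simp only [map_add, map_sub, map_one, aeval_X, map_pow, Nat.cast_ofNat]
    linear_combination (-52 + 29 * ζ - 36 * ζ ^ 2) * hΦ
  · simp only [map_add, map_sub, map_one, aeval_X, map_pow, Int.cast_ofNat]
    linear_combination (36 - 20 * ζ + 25 * ζ ^ 2) * hΦ

/-- A principal prime over `79` in `ℤ[ζ₁₃]`. -/
theorem exists_principal_79 (K : Type*) [Field K] [NumberField K]
    [IsCyclotomicExtension {13} ℚ K] :
    ∃ P ∈ primesOver (span {((79 : ℕ) : ℤ)}) (𝓞 K), Submodule.IsPrincipal P := by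
  have : Fact (Nat.Prime 13) := ⟨by norm_num⟩
  have : Fact (Nat.Prime 79) := ⟨by norm_num⟩
  have hζ := IsCyclotomicExtension.zeta_spec 13 ℚ K
  have hΦ := geom_zero K
  set ζ : 𝓞 K := hζ.toInteger with hζdef
  refine exists_principal_of_cert 13 K 79 64 ?_ (1 + X - X ^ 4) ?_
    (24 - 25 * ζ - 27 * ζ ^ 2 + 10 * ζ ^ 3 - 3 * ζ ^ 4 - 39 * ζ ^ 5 - 5 * ζ ^ 6 - 2 * ζ ^ 7 - 18 * ζ ^ 8 - 38 * ζ ^ 9 + 16 * ζ ^ 10 - 35 * ζ ^ 11)
    (-19 + 21 * ζ + 22 * ζ ^ 2 - 8 * ζ ^ 3 + 3 * ζ ^ 4 + 32 * ζ ^ 5 + 4 * ζ ^ 6 + 2 * ζ ^ 7 + 15 * ζ ^ 8 + 31 * ζ ^ 9 - 13 * ζ ^ 10 + 29 * ζ ^ 11) ?_ ?_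
  · norm_num [Finset.sum_range_succ]
  · norm_num
  · simp only [map_add, map_sub, map_one, aeval_X, map_pow, Nat.cast_ofNat]
    linear_combination (-55 + 54 * ζ - 51 * ζ ^ 2 + 35 * ζ ^ 3) * hΦ
  · simp only [map_add, map_sub, map_one, aeval_X, map_pow, Int.cast_ofNat]
    linear_combination (45 - 44 * ζ + 42 * ζ ^ 2 - 29 * ζ ^ 3) * hΦ

/-- A principal prime over `131` in `ℤ[ζ₁₃]`. -/
theorem exists_principal_131 (K : Type*) [Field K] [NumberField K]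
    [IsCyclotomicExtension {13} ℚ K] :
    ∃ P ∈ primesOver (span {((131 : ℕ) : ℤ)}) (𝓞 K), Submodule.IsPrincipal P := by
  have : Fact (Nat.Prime 13) := ⟨by norm_num⟩
  have : Fact (Nat.Prime 131) := ⟨by norm_num⟩
  have hζ := IsCyclotomicExtension.zeta_spec 13 ℚ K
  have hΦ := geom_zero K
  set ζ : 𝓞 K := hζ.toInteger with hζdef
  refine exists_principal_of_cert 13 K 131 80 ?_ (1 - X - X ^ 3) ?_
    (111 + 78 * ζ + 17 * ζ ^ 2 + 67 * ζ ^ 3 + 84 * ζ ^ 4 + 40 * ζ ^ 5 + 46 * ζ ^ 6 + 69 * ζ ^ 7 + 48 * ζ ^ 8 + 33 * ζ ^ 9 + 41 * ζ ^ 10 + 28 * ζ ^ 11)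
    (-68 - 47 * ζ - 10 * ζ ^ 2 - 41 * ζ ^ 3 - 51 * ζ ^ 4 - 24 * ζ ^ 5 - 28 * ζ ^ 6 - 42 * ζ ^ 7 - 29 * ζ ^ 8 - 20 * ζ ^ 9 - 25 * ζ ^ 10 - 17 * ζ ^ 11) ?_ ?_
  · norm_num [Finset.sum_range_succ]
  · norm_num
  · simp only [map_add, map_sub, map_one, aeval_X, map_pow, Nat.cast_ofNat]
    linear_combination (-20 - 13 * ζ - 28 * ζ ^ 2) * hΦ
  · simp only [map_add, map_sub, map_one, aeval_X, map_pow, Int.cast_ofNat]
    linear_combination (12 + 8 * ζ + 17 * ζ ^ 2) * hΦ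

/-- A principal prime over `157` in `ℤ[ζ₁₃]`. -/
theorem exists_principal_157 (K : Type*) [Field K] [NumberField K]
    [IsCyclotomicExtension {13} ℚ K] :
    ∃ P ∈ primesOver (span {((157 : ℕ) : ℤ)}) (𝓞 K), Submodule.IsPrincipal P := by
  have : Fact (Nat.Prime 13) := ⟨by norm_num⟩
  have : Fact (Nat.Prime 157) := ⟨by norm_num⟩
  have hζ := IsCyclotomicExtension.zeta_spec 13 ℚ K
  have hΦ := geom_zero K
  set ζ : 𝓞 K := hζ.toInteger with hζdef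
  refine exists_principal_of_cert 13 K 157 75 ?_ (1 - X + X ^ 2 + X ^ 4) ?_
    (89 + 86 * ζ + 42 * ζ ^ 2 + 77 * ζ ^ 3 + 67 * ζ ^ 4 + 25 * ζ ^ 5 + 37 * ζ ^ 6 + 56 * ζ ^ 7 + 73 * ζ ^ 8 + 113 * ζ ^ 9 + 124 * ζ ^ 10 + 76 * ζ ^ 11)
    (-43 - 41 * ζ - 20 * ζ ^ 2 - 37 * ζ ^ 3 - 32 * ζ ^ 4 - 12 * ζ ^ 5 - 18 * ζ ^ 6 - 27 * ζ ^ 7 - 35 * ζ ^ 8 - 54 * ζ ^ 9 - 59 * ζ ^ 10 - 36 * ζ ^ 11) ?_ ?_
  · norm_num [Finset.sum_range_succ]
  · norm_num
  · simp only [map_add, map_sub, map_one, aeval_X, map_pow, Nat.cast_ofNat]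
    linear_combination (-68 + 65 * ζ + 48 * ζ ^ 2 + 76 * ζ ^ 3) * hΦ
  · simp only [map_add, map_sub, map_one, aeval_X, map_pow, Int.cast_ofNat]
    linear_combination (32 - 31 * ζ - 23 * ζ ^ 2 - 36 * ζ ^ 3) * hΦ

/-- `X³ - X - 1` is irreducible over `𝔽₃`. -/
theorem irreducible_cubic_mod_three :
    Irreducible (X ^ 3 - X - 1 : (ZMod 3)[X]) := by
  have hmonic : (X ^ 3 - X - 1 : (ZMod 3)[X]).Monic := by
    monicity!
  have hdeg : (X ^ 3 - X - 1 : (ZMod 3)[X]).natDegree = 3 := by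
    compute_degree!
  rw [hmonic.irreducible_iff_roots_eq_zero_of_degree_le_three (by omega) (by omega)]
  rw [Multiset.eq_zero_iff_forall_notMem]
  intro x hx
  rw [mem_roots hmonic.ne_zero] at hx
  simp only [IsRoot.def, eval_sub, eval_pow, eval_X, eval_one] at hx
  revert x
  decide

/-- A principal prime over `3` in `ℤ[ζ₁₃]` (inertia degree `3`), generated by `ζ³ - ζ - 1`. -/
theorem exists_principal_3 (K : Type*) [Field K] [NumberField K]
    [IsCyclotomicExtension {13} ℚ K] :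
    ∃ P ∈ primesOver (span {((3 : ℕ) : ℤ)}) (𝓞 K), Submodule.IsPrincipal P := by
  have : Fact (Nat.Prime 13) := ⟨by norm_num⟩
  have : Fact (Nat.Prime 3) := ⟨by norm_num⟩
  have hζ := IsCyclotomicExtension.zeta_spec 13 ℚ K
  have hΦ := geom_zero K
  set ζ : 𝓞 K := hζ.toInteger with hζdef
  -- `ℤ[ζ] = 𝓞 K`, so the exponent is `1`
  have hexp : ¬ 3 ∣ RingOfIntegers.exponent ζ := by
    have h1 : RingOfIntegers.exponent ζ = 1 := by
      rw [RingOfIntegers.exponent_eq_one_iff]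
      have := hζ.integralPowerBasis.adjoin_gen_eq_top
      rwa [hζ.integralPowerBasis_gen] at this
    rw [h1]; norm_num
  -- the minimal polynomial
  have hmin : minpoly ℤ ζ = cyclotomic 13 ℤ := by
    have hcoe : ((hζ.toInteger : 𝓞 K) : K) = IsCyclotomicExtension.zeta 13 ℚ K := rfl
    rw [hζdef, ← RingOfIntegers.minpoly_coe, hcoe, ← cyclotomic_eq_minpoly hζ (by norm_num)]
  have hid : cyclotomic 13 ℤ = (X ^ 3 - X - 1) *
      (20 + 15 * X + 11 * X ^ 2 + 8 * X ^ 3 + 6 * X ^ 4 + 4 * X ^ 5 + 3 * X ^ 6 + 2 * X ^ 7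
        + X ^ 8 + X ^ 9) + C 3 * (7 + 12 * X + 9 * X ^ 2) := by
    rw [cyclotomic_prime]
    simp only [Finset.sum_range_succ, Finset.range_zero, Finset.sum_empty, map_ofNat]
    ring
  have hQmap : (X ^ 3 - X - 1 : ℤ[X]).map (Int.castRingHom (ZMod 3)) = X ^ 3 - X - 1 := by
    simp
  have hQ : (X ^ 3 - X - 1 : ℤ[X]).map (Int.castRingHom (ZMod 3)) ∈
      RingOfIntegers.monicFactorsMod ζ 3 := by
    have h₀ : map (Int.castRingHom (ZMod 3)) (minpoly ℤ ζ) ≠ 0 :=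
      map_monic_ne_zero (minpoly.monic ζ.isIntegral)
    rw [Multiset.mem_toFinset, Polynomial.mem_normalizedFactors_iff h₀, hQmap]
    refine ⟨irreducible_cubic_mod_three, by monicity!, ?_⟩
    rw [hmin, hid]
    refine ⟨(20 + 15 * X + 11 * X ^ 2 + 8 * X ^ 3 + 6 * X ^ 4 + 4 * X ^ 5 + 3 * X ^ 6 + 2 * X ^ 7
        + X ^ 8 + X ^ 9 : ℤ[X]).map (Int.castRingHom (ZMod 3)), ?_⟩
    have h3 : (3 : ZMod 3) = 0 := by exact_mod_cast ZMod.natCast_self 3
    rw [Polynomial.map_add, Polynomial.map_mul, Polynomial.map_mul, hQmap, map_C]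
    simp [h3]
  have hmem := ((NumberField.Ideal.primesOverSpanEquivMonicFactorsMod hexp).symm ⟨_, hQ⟩).2
  rw [NumberField.Ideal.primesOverSpanEquivMonicFactorsMod_symm_apply_eq_span hexp hQ] at hmem
  refine ⟨_, hmem, ?_⟩
  have hα : aeval ζ (X ^ 3 - X - 1 : ℤ[X]) = ζ ^ 3 - ζ - 1 := by simp
  have hdvd : (ζ ^ 3 - ζ - 1) ∣ (3 : 𝓞 K) := by
    refine ⟨1 + ζ ^ 2 + ζ ^ 3 + 2 * ζ ^ 5 + ζ ^ 7 + 2 * ζ ^ 8 - ζ ^ 9 + 3 * ζ ^ 10, ?_⟩
    linear_combination (4 - 3 * ζ) * hΦ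
  rw [hα, Nat.cast_ofNat, span_pair_eq_span_right_iff_dvd.mpr hdvd]
  exact ⟨⟨_, rfl⟩⟩

/-- All five exceptional primes at once. -/
theorem exists_principal_of_mem (K : Type*) [Field K] [NumberField K]
    [IsCyclotomicExtension {13} ℚ K] (q : ℕ)
    (hq : q = 3 ∨ q = 53 ∨ q = 79 ∨ q = 131 ∨ q = 157) :
    ∃ P ∈ primesOver (span {(q : ℤ)}) (𝓞 K), Submodule.IsPrincipal P := by
  rcases hq with rfl | rfl | rfl | rfl | rfl
  · exact exists_principal_3 K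
  · exact exists_principal_53 K
  · exact exists_principal_79 K
  · exact exists_principal_131 K
  · exact exists_principal_157 K

end Fermat.Agent.S10.PID13Cert
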