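import Mathlib

/-!
# `ℤ[ζ₇]` is a principal ideal domain

Minkowski bound `≈ 4.13`; the primes `2` and `3` have inertia degrees `3` and `6` in `ℚ(ζ₇)`.
-/

set_option autoImplicit false

namespace Fermat.Agent.S10

open NumberField Polynomial InfinitePlace Nat Real cyclotomic Ideal IsCyclotomicExtension.Rat
open Module

theorem orderOf_two_zmod_seven : orderOf ((2 : ℕ) : ZMod 7) = 3 :=
  (orderOf_eq_iff (by norm_num)).mpr ⟨by decide, by decide⟩

theorem orderOf_three_zmod_seven : orderOf ((3 : ℕ) : ZMod 7) = 6 :=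
  (orderOf_eq_iff (by norm_num)).mpr ⟨by decide, by decide⟩

theorem seven_pid (K : Type*) [Field K] [NumberField K] [IsCyclotomicExtension {7} ℚ K] :
    IsPrincipalIdealRing (𝓞 K) := by
  have : Fact (Nat.Prime 7) := ⟨by norm_num⟩
  have : IsGalois ℚ K := IsCyclotomicExtension.isGalois {7} ℚ K
  have hM : ⌊(4 / π) ^ nrComplexPlaces K *
      ((finrank ℚ K)! / (finrank ℚ K) ^ (finrank ℚ K) * √|discr K|)⌋₊ ≤ 4 := by
    rw [discr_prime 7 K, IsCyclotomicExtension.finrank (n := 7) K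
      (irreducible_rat (by simp)), nrComplexPlaces_eq_totient_div_two 7,
      totient_prime (by norm_num)]
    have e1 : ((((-1 : ℤ) ^ ((7 - 1) / 2) * ((7 : ℕ) : ℤ) ^ (7 - 2) : ℤ)) : ℝ) = -16807 := by
      norm_num
    have e2 : (((7 - 1 : ℕ)! : ℕ) : ℝ) = 720 := by
      norm_num [Nat.factorial]
    rw [e1, e2]
    have h0 : (0 : ℝ) < π := pi_pos
    have h1 : (4 / π) < 4 / 3.14 := by
      gcongr
      exact pi_gt_d2
    have h1' : (0 : ℝ) ≤ 4 / π := by positivity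
    have h2 : √|(-16807 : ℝ)| ≤ 129.65 := by
      rw [abs_neg, abs_of_pos (by norm_num : (0 : ℝ) < 16807)]
      exact Real.sqrt_le_iff.mpr ⟨by norm_num, by norm_num⟩
    have h3 : (4 / π) ^ ((7 - 1) / 2) ≤ (4 / 3.14 : ℝ) ^ ((7 - 1) / 2) := by
      gcongr
    have hlt : (4 / π) ^ ((7 - 1) / 2) * ((720 : ℝ) / ((7 - 1 : ℕ) : ℝ) ^ (7 - 1) * √|(-16807 : ℝ)|)
        < 5 := by
      calc (4 / π) ^ ((7 - 1) / 2) * ((720 : ℝ) / ((7 - 1 : ℕ) : ℝ) ^ (7 - 1) * √|(-16807 : ℝ)|)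
          ≤ (4 / 3.14 : ℝ) ^ ((7 - 1) / 2) * ((720 : ℝ) / ((7 - 1 : ℕ) : ℝ) ^ (7 - 1) * 129.65) := by
            gcongr
        _ < 5 := by norm_num
    have hnn : (0 : ℝ) ≤ (4 / π) ^ ((7 - 1) / 2) *
        ((720 : ℝ) / ((7 - 1 : ℕ) : ℝ) ^ (7 - 1) * √|(-16807 : ℝ)|) := by positivity
    exact Nat.lt_succ_iff.mp ((Nat.floor_lt hnn).mpr (by exact_mod_cast hlt))
  apply RingOfIntegers.isPrincipalIdealRing_of_isPrincipal_of_lt_or_isPrincipal_of_mem_primesOver_of_mem_Icc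
  intro q hq hqp
  have hq4 : q ≤ 4 := (Finset.mem_Icc.mp hq).2.trans hM
  have : Fact q.Prime := ⟨hqp⟩
  obtain ⟨⟨P, hP1, hP2⟩⟩ := (span {(q : ℤ)}).nonempty_primesOver (S := 𝓞 K)
  refine ⟨P, ⟨hP1, hP2⟩, Or.inl ?_⟩
  refine lt_of_le_of_lt hM ?_
  have hq7 : ¬ q ∣ 7 := by
    intro h
    have := Nat.le_of_dvd (by norm_num) h
    have h2 := hqp.two_le
    interval_cases q <;> omega
  rw [inertiaDeg_eq_of_not_dvd q K P hq7]
  have h2 := hqp.two_le
  interval_cases q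
  · rw [orderOf_two_zmod_seven]; norm_num
  · rw [orderOf_three_zmod_seven]; norm_num
  · exact absurd hqp (by norm_num)

end Fermat.Agent.S10
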